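import Fermat.Agent.Lib.Newform.H923.HeckeInt

/-!
# Atkin–Lehner matrices for `Γ₀(q M)` and commutation with the Hecke operators `T_ℓ`

`IsAL q M A` says that `A = [[q a, b], [q M c, q d]]` with integers `a b c d` and
`q a d - M b c = 1` (so `det A = q`).  For a function `f` invariant under `Γ₀(q M)`:

* `slash_AL_eq` : `f ∣[k] A` does not depend on the choice of `A`;
* `slash_AL_invariant` : `f ∣[k] A` is again invariant under `Γ₀(q M)`;
* `slash_AL_slash_AL` : in weight `2`, `(f ∣[2] A) ∣[2] A = f`;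
* `heckeT_slash_AL` : `T_ℓ (f ∣[k] A) = (T_ℓ f) ∣[k] A` for primes `ℓ ∤ q M`;
* `exists_isAL` : such matrices exist when `q` and `M` are coprime.
-/

set_option autoImplicit false

noncomputable section

namespace Fermat.Agent.Lib.Newform.H923

open Matrix UpperHalfPlane ModularForm
open scoped MatrixGroups ModularForm OnePoint

/-- Invariance of a function on the upper half plane under `Γ₀(N)` in weight `k`
(the shape of hypothesis used by the Prelude). -/
def InvUnder (N : ℕ) (k : ℤ) (f : ℍ → ℂ) : Prop :=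
  ∀ γ ∈ (CongruenceSubgroup.Gamma0 N : Subgroup (GL (Fin 2) ℝ)), f ∣[k] γ = f

theorem InvUnder.slash_mapGL {N : ℕ} {k : ℤ} {f : ℍ → ℂ} (hf : InvUnder N k f)
    {g : SL(2, ℤ)} (hg : g ∈ CongruenceSubgroup.Gamma0 N) :
    f ∣[k] (Matrix.SpecialLinearGroup.mapGL ℝ g) = f :=
  hf _ (Subgroup.mem_map_of_mem _ hg)

theorem invUnder_of_slashInvariantFormClass {N : ℕ} {k : ℤ} {F : Type*} [FunLike F ℍ ℂ]
    [SlashInvariantFormClass F (CongruenceSubgroup.Gamma0 N : Subgroup (GL (Fin 2) ℝ)) k]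
    (f : F) : InvUnder N k (f : ℍ → ℂ) :=
  fun γ hγ => SlashInvariantFormClass.slash_action_eq f γ hγ

/-- `IsAL q M A`: `A` is an Atkin–Lehner matrix at `q` for the level `q * M`. -/
def IsAL (q M : ℕ) (A : GL (Fin 2) ℝ) : Prop :=
  ∃ a b c d : ℤ, IsInt A (q * a) b (q * M * c) (q * d) ∧ q * a * d - M * b * c = 1

/-- An integral matrix of determinant `q` whose entries satisfy the Atkin–Lehner divisibilities
is an Atkin–Lehner matrix. -/
theorem isAL_of_dvd {q M : ℕ} (hq : q ≠ 0) {A : GL (Fin 2) ℝ} {a b c d : ℤ}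
    (hA : IsInt A a b c d) (hdet : a * d - b * c = q) (ha : (q : ℤ) ∣ a)
    (hc : ((q * M : ℕ) : ℤ) ∣ c) (hd : (q : ℤ) ∣ d) : IsAL q M A := by
  obtain ⟨a', rfl⟩ := ha
  obtain ⟨c', rfl⟩ := hc
  obtain ⟨d', rfl⟩ := hd
  refine ⟨a', b, c', d', ?_, ?_⟩
  · simpa [IsInt] using hA
  · have hq' : (q : ℤ) ≠ 0 := by exact_mod_cast hq
    apply mul_left_cancel₀ hq'
    push_cast at hdet
    linear_combination hdet

/-- Two Atkin–Lehner matrices differ by an element of `Γ₀(q M)` on the left. -/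
theorem IsAL.exists_eq_mul {q M : ℕ} {A A' : GL (Fin 2) ℝ} (hA : IsAL q M A)
    (hA' : IsAL q M A') :
    ∃ g ∈ CongruenceSubgroup.Gamma0 (q * M), A' = Matrix.SpecialLinearGroup.mapGL ℝ g * A := by
  obtain ⟨a, b, c, d, hInt, h⟩ := hA
  obtain ⟨a', b', c', d', hInt', h'⟩ := hA'
  let g : SL(2, ℤ) := ⟨!![q * a' * d - M * b' * c, a * b' - a' * b;
      q * M * (c' * d - c * d'), q * a * d' - M * b * c'], by
    rw [Matrix.det_fin_two_of]
    linear_combination (q * a * d - M * b * c) * h' + h⟩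
  have hg00 : g 0 0 = q * a' * d - M * b' * c := rfl
  have hg01 : g 0 1 = a * b' - a' * b := rfl
  have hg10 : g 1 0 = q * M * (c' * d - c * d') := rfl
  have hg11 : g 1 1 = q * a * d' - M * b * c' := rfl
  refine ⟨g, ?_, ?_⟩
  · rw [CongruenceSubgroup.Gamma0_mem, hg10]
    push_cast
    have : ((q : ZMod (q * M)) * (M : ZMod (q * M))) = 0 := by
      rw [← Nat.cast_mul]
      exact ZMod.natCast_self _
    rw [this, zero_mul]
  · refine hInt'.ext ((isInt_mapGL g).mul hInt) ?_ ?_ ?_ ?_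
    · rw [hg00, hg01]
      linear_combination (-(q * a' : ℤ)) * h
    · rw [hg00, hg01]
      linear_combination (-(b' : ℤ)) * h
    · rw [hg10, hg11]
      linear_combination (-(q * M * c' : ℤ)) * h
    · rw [hg10, hg11]
      linear_combination (-(q * d' : ℤ)) * h

/-- The slash by an Atkin–Lehner matrix does not depend on the matrix. -/
theorem slash_AL_eq {q M : ℕ} {k : ℤ} {f : ℍ → ℂ} (hf : InvUnder (q * M) k f)
    {A A' : GL (Fin 2) ℝ} (hA : IsAL q M A) (hA' : IsAL q M A') :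
    f ∣[k] A' = f ∣[k] A := by
  obtain ⟨g, hg, rfl⟩ := hA.exists_eq_mul hA'
  rw [SlashAction.slash_mul, hf.slash_mapGL hg]

/-- An Atkin–Lehner matrix times an element of `Γ₀(q M)` is an Atkin–Lehner matrix. -/
theorem IsAL.mul_mapGL {q M : ℕ} {A : GL (Fin 2) ℝ} (hA : IsAL q M A) {g : SL(2, ℤ)}
    (hg : g ∈ CongruenceSubgroup.Gamma0 (q * M)) :
    IsAL q M (A * Matrix.SpecialLinearGroup.mapGL ℝ g) := by
  obtain ⟨a, b, c, d, hInt, h⟩ := hA
  obtain ⟨t, ht⟩ : ((q * M : ℕ) : ℤ) ∣ g 1 0 :=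
    (ZMod.intCast_zmod_eq_zero_iff_dvd _ _).mp (CongruenceSubgroup.Gamma0_mem.mp hg)
  push_cast at ht
  have hdet : g 0 0 * g 1 1 - g 0 1 * g 1 0 = 1 := by
    have := g.det_coe
    rwa [Matrix.det_fin_two] at this
  refine ⟨a * g 0 0 + b * M * t, q * a * g 0 1 + b * g 1 1, c * g 0 0 + q * d * t,
    M * c * g 0 1 + d * g 1 1, ?_, ?_⟩
  · have := hInt.mul (isInt_mapGL g)
    rw [ht] at this
    unfold IsInt at this ⊢
    rw [this]
    ext i j
    fin_cases i <;> fin_cases j <;> simp <;> ring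
  · rw [ht] at hdet
    linear_combination (g 0 0 * g 1 1 - g 0 1 * (q * M * t)) * h + hdet

/-- The slash by an Atkin–Lehner matrix preserves `Γ₀(q M)`-invariance. -/
theorem slash_AL_invariant {q M : ℕ} {k : ℤ} {f : ℍ → ℂ} (hf : InvUnder (q * M) k f)
    {A : GL (Fin 2) ℝ} (hA : IsAL q M A) : InvUnder (q * M) k (f ∣[k] A) := by
  rintro _ ⟨g, hg, rfl⟩
  rw [← SlashAction.slash_mul]
  exact slash_AL_eq hf hA (hA.mul_mapGL hg)

/-- Existence of Atkin–Lehner matrices. -/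
theorem exists_isAL {q M : ℕ} (hq : q ≠ 0) (hqM : Nat.Coprime q M) : ∃ A, IsAL q M A := by
  have hcop : IsCoprime (q : ℤ) (M : ℤ) := Nat.isCoprime_iff_coprime.mpr hqM
  obtain ⟨u, v, huv⟩ := hcop
  have hq' : (q : ℤ) ≠ 0 := by exact_mod_cast hq
  have hdet : (q * u : ℤ) * (q * 1) - 1 * (q * M * (-v)) ≠ 0 := by
    have : (q * u : ℤ) * (q * 1) - 1 * (q * M * (-v)) = q := by linear_combination (q : ℤ) * huv
    rw [this]
    exact hq'
  exact ⟨intGL (q * u) 1 (q * M * (-v)) (q * 1) hdet, u, 1, -v, 1, isInt_intGL _ _ _ _ _,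
    by linear_combination huv⟩

/-- Scalar matrices act trivially in weight `2`. -/
theorem slash_two_scalar (u : ℝˣ) (f : ℍ → ℂ) :
    f ∣[(2 : ℤ)] (Matrix.GeneralLinearGroup.scalar (Fin 2) u) = f := by
  have hu : (u : ℝ) ≠ 0 := u.ne_zero
  have hdet : ((Matrix.GeneralLinearGroup.scalar (Fin 2) u).det : ℝ) = (u : ℝ) * u := by
    rw [Matrix.GeneralLinearGroup.val_det_apply, Matrix.GeneralLinearGroup.coe_scalar,
      Matrix.det_fin_two]
    simp
  have hdetpos : 0 < ((Matrix.GeneralLinearGroup.scalar (Fin 2) u).det : ℝ) := by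
    rw [hdet]
    exact mul_self_pos.mpr hu
  ext τ
  rw [ModularForm.slash_apply, UpperHalfPlane.σ, if_pos hdetpos, hdet]
  simp only [ContinuousAlgEquiv.refl_apply]
  have h1 : Matrix.GeneralLinearGroup.scalar (Fin 2) u • τ = τ := by
    simp
  rw [h1, UpperHalfPlane.denom_scalar]
  have hu' : ((u : ℝ) : ℂ) ≠ 0 := by exact_mod_cast hu
  rw [abs_mul_self]
  push_cast
  norm_num
  field_simp

/-- The square of an Atkin–Lehner matrix is `q` times an element of `Γ₀(q M)`. -/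
theorem IsAL.exists_sq {q M : ℕ} (hq : q ≠ 0) {A : GL (Fin 2) ℝ} (hA : IsAL q M A) :
    ∃ g ∈ CongruenceSubgroup.Gamma0 (q * M),
      A * A = Matrix.SpecialLinearGroup.mapGL ℝ g *
        Matrix.GeneralLinearGroup.scalar (Fin 2) (Units.mk0 (q : ℝ) (by exact_mod_cast hq)) := by
  obtain ⟨a, b, c, d, hInt, h⟩ := hA
  let g : SL(2, ℤ) := ⟨!![q * a * a + b * M * c, b * (a + d);
      q * M * (c * (a + d)), M * b * c + q * d * d], by
    rw [Matrix.det_fin_two_of]
    linear_combination (q * a * d - M * b * c + 1) * h⟩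
  have hg00 : g 0 0 = q * a * a + b * M * c := rfl
  have hg01 : g 0 1 = b * (a + d) := rfl
  have hg10 : g 1 0 = q * M * (c * (a + d)) := rfl
  have hg11 : g 1 1 = M * b * c + q * d * d := rfl
  have hs : IsInt (Matrix.GeneralLinearGroup.scalar (Fin 2)
      (Units.mk0 (q : ℝ) (by exact_mod_cast hq))) q 0 0 q := by
    unfold IsInt
    rw [Matrix.GeneralLinearGroup.coe_scalar]
    ext i j
    fin_cases i <;> fin_cases j <;> simp [Matrix.natCast_apply]
  refine ⟨g, ?_, ?_⟩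
  · rw [CongruenceSubgroup.Gamma0_mem, hg10]
    push_cast
    have : ((q : ZMod (q * M)) * (M : ZMod (q * M))) = 0 := by
      rw [← Nat.cast_mul]
      exact ZMod.natCast_self _
    rw [this, zero_mul]
  · refine (hInt.mul hInt).ext ((isInt_mapGL g).mul hs) ?_ ?_ ?_ ?_
    · rw [hg00, hg01]; ring
    · rw [hg00, hg01]; ring
    · rw [hg10, hg11]; ring
    · rw [hg10, hg11]; ring

/-- In weight `2`, the Atkin–Lehner operator is an involution. -/
theorem slash_AL_slash_AL {q M : ℕ} (hq : q ≠ 0) {f : ℍ → ℂ} (hf : InvUnder (q * M) 2 f)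
    {A : GL (Fin 2) ℝ} (hA : IsAL q M A) : (f ∣[(2 : ℤ)] A) ∣[(2 : ℤ)] A = f := by
  obtain ⟨g, hg, hgA⟩ := hA.exists_sq hq
  rw [← SlashAction.slash_mul, hgA, SlashAction.slash_mul, hf.slash_mapGL hg, slash_two_scalar]

/-- The Hecke operator `T_ℓ`, `ℓ ∤ q M`, commutes with the Atkin–Lehner operator at `q`. -/
theorem heckeT_slash_AL (k : ℤ) {q M ℓ : ℕ} (hq : q ≠ 0) (hℓ : ℓ.Prime) (hℓN : ¬ ℓ ∣ q * M)
    {f : ℍ → ℂ} (hf : InvUnder (q * M) k f) {A : GL (Fin 2) ℝ} (hA : IsAL q M A) :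
    heckeT k ℓ f ∣[k] A = heckeT k ℓ (f ∣[k] A) := by
  have : Fact ℓ.Prime := ⟨hℓ⟩
  have : NeZero ℓ := ⟨hℓ.ne_zero⟩
  obtain ⟨a, b, c, d, hInt, h⟩ := id hA
  have hdetA : (q * a : ℤ) * (q * d) - b * (q * M * c) = q := by linear_combination (q : ℤ) * h
  have hℓq : ¬ ℓ ∣ q := fun hd => hℓN (Dvd.dvd.mul_right hd M)
  have hdet : ¬ (ℓ : ℤ) ∣ (q * a : ℤ) * (q * d) - b * (q * M * c) := by
    rw [hdetA]
    exact fun hd => hℓq (Int.natCast_dvd_natCast.mp hd)
  have hcopq : IsCoprime (q : ℤ) (ℓ : ℤ) :=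
    Nat.isCoprime_iff_coprime.mpr ((Nat.Prime.coprime_iff_not_dvd hℓ).mpr hℓq).symm
  have hcopN : IsCoprime ((q * M : ℕ) : ℤ) (ℓ : ℤ) :=
    Nat.isCoprime_iff_coprime.mpr ((Nat.Prime.coprime_iff_not_dvd hℓ).mpr hℓN).symm
  rw [heckeT_eq_sum_hRep, heckeT_eq_sum_hRep, SlashAction.sum_slash]
  calc ∑ x : OnePoint (ZMod ℓ), (f ∣[k] hRep ℓ x) ∣[k] A
      = ∑ x : OnePoint (ZMod ℓ),
          (f ∣[k] A) ∣[k] hRep ℓ (redGL ℓ (q * a) b (q * M * c) (q * d) hdet • x) := by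
        refine Finset.sum_congr rfl fun x _ ↦ ?_
        obtain ⟨A', a', b', c', d', hA', hdet', h1, h2, h3, hmul⟩ := exists_hRep_mul hInt hdet x
        have hAL' : IsAL q M A' := by
          refine isAL_of_dvd hq hA' (hdet'.trans hdetA) ?_ ?_ ?_
          · exact h2 q hcopq (Dvd.intro _ rfl) (by rw [mul_assoc]; exact Dvd.intro _ rfl)
          · exact h1 _ hcopN (by push_cast; exact Dvd.intro _ rfl)
          · exact h3 q hcopq (Dvd.intro _ rfl) (by rw [mul_assoc]; exact Dvd.intro _ rfl)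
        rw [← SlashAction.slash_mul, hmul, SlashAction.slash_mul, slash_AL_eq hf hA hAL']
    _ = ∑ x : OnePoint (ZMod ℓ), (f ∣[k] A) ∣[k] hRep ℓ x :=
        Equiv.sum_comp (MulAction.toPerm (redGL ℓ (q * a) b (q * M * c) (q * d) hdet))
          (fun x ↦ (f ∣[k] A) ∣[k] hRep ℓ x)

end Fermat.Agent.Lib.Newform.H923
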