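import Fermat.Agent.Lib.Newform.H923.ALTrace
import Fermat.Agent.Lib.Newform.H958.Spec
import Fermat.Prelude.Def_ModularForm_HeckeOperatorForms

/-!
# The leaf `TraceAL` of the NEWFORM library

We package the Atkin–Lehner operator `W_q` on cusp forms of level `q M` (`q ∤ M`) as a linear map,
and prove the frozen interface statement `Fermat.Agent.Lib.Newform.H958.TraceAL`:
`W_q` commutes with all `T_ℓ` (`ℓ ∤ N`) and both `f + U_q (W_q f)` and `W_q f + U_q f` are cusp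
forms of level `N / q`.
-/

set_option autoImplicit false

noncomputable section

namespace Fermat.Agent.Lib.Newform.H923

open Matrix UpperHalfPlane ModularForm CongruenceSubgroup
open scoped MatrixGroups ModularForm OnePoint Manifold Pointwise

theorem IsAL.det_pos {q M : ℕ} (hq : q ≠ 0) {A : GL (Fin 2) ℝ} (hA : IsAL q M A) :
    0 < (A.det : ℝ) := by
  obtain ⟨a, b, c, d, hInt, h⟩ := hA
  rw [hInt.det]
  have : (q * a : ℤ) * (q * d) - b * (q * M * c) = q := by linear_combination (q : ℤ) * h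
  rw [this]
  exact_mod_cast Nat.pos_of_ne_zero hq

theorem IsAL.σ_eq {q M : ℕ} (hq : q ≠ 0) {A : GL (Fin 2) ℝ} (hA : IsAL q M A) :
    UpperHalfPlane.σ A = .refl ℝ ℂ := by
  rw [UpperHalfPlane.σ, if_pos (hA.det_pos hq)]

/-- An Atkin–Lehner matrix normalises `Γ₀(q M)` (one inclusion). -/
theorem IsAL.conj_le {q M : ℕ} {A : GL (Fin 2) ℝ} (hA : IsAL q M A) :
    ConjAct.toConjAct A • (Gamma0 (q * M) : Subgroup (GL (Fin 2) ℝ)) ≤
      (Gamma0 (q * M) : Subgroup (GL (Fin 2) ℝ)) := by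
  intro x hx
  rw [Subgroup.mem_pointwise_smul_iff_inv_smul_mem, ← ConjAct.toConjAct_inv,
    ConjAct.toConjAct_smul, inv_inv] at hx
  obtain ⟨g, hg, hgx⟩ := hx
  obtain ⟨g', hg', h⟩ := hA.exists_eq_mul (hA.mul_mapGL hg)
  refine ⟨g', hg', ?_⟩
  have h1 : A * (A⁻¹ * x * A) = x * A := by group
  rw [← hgx] at h1
  rw [h] at h1
  exact mul_right_cancel h1

theorem IsAL.isCusp_smul {q M : ℕ} {A : GL (Fin 2) ℝ} (hA : IsAL q M A) {c : OnePoint ℝ}
    (hc : IsCusp c (Gamma0 (q * M) : Subgroup (GL (Fin 2) ℝ))) :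
    IsCusp (A • c) (Gamma0 (q * M) : Subgroup (GL (Fin 2) ℝ)) :=
  (hc.smul A).mono hA.conj_le

/-- The Atkin–Lehner operator on cusp forms of level `q M`. -/
def alCusp (k : ℤ) {q M : ℕ} {A : GL (Fin 2) ℝ} (hA : IsAL q M A)
    (f : CuspForm (Gamma0 (q * M)) k) : CuspForm (Gamma0 (q * M)) k where
  toFun := ⇑f ∣[k] A
  slash_action_eq' := slash_AL_invariant (invUnder_of_slashInvariantFormClass f) hA
  holo' := (CuspFormClass.holo f).slash k A
  zero_at_cusps' := fun {c} hc => by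
    rw [← OnePoint.IsZeroAt.smul_iff]
    exact CuspFormClass.zero_at_cusps f (hA.isCusp_smul hc)

@[simp] theorem coe_alCusp (k : ℤ) {q M : ℕ} {A : GL (Fin 2) ℝ} (hA : IsAL q M A)
    (f : CuspForm (Gamma0 (q * M)) k) : ⇑(alCusp k hA f) = ⇑f ∣[k] A := rfl

/-- The Atkin–Lehner operator as a linear map. -/
def alLin (k : ℤ) {q M : ℕ} (hq : q ≠ 0) {A : GL (Fin 2) ℝ} (hA : IsAL q M A) :
    CuspForm (Gamma0 (q * M)) k →ₗ[ℂ] CuspForm (Gamma0 (q * M)) k where
  toFun := alCusp k hA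
  map_add' f g := DFunLike.coe_injective <| by
    rw [coe_alCusp, CuspForm.coe_add, SlashAction.add_slash, CuspForm.coe_add, coe_alCusp,
      coe_alCusp]
  map_smul' c f := DFunLike.coe_injective <| by
    rw [coe_alCusp, CuspForm.IsGLPos.coe_smul, ModularForm.smul_slash, hA.σ_eq hq,
      RingHom.id_apply, CuspForm.IsGLPos.coe_smul, coe_alCusp]
    rfl

@[simp] theorem coe_alLin (k : ℤ) {q M : ℕ} (hq : q ≠ 0) {A : GL (Fin 2) ℝ} (hA : IsAL q M A)
    (f : CuspForm (Gamma0 (q * M)) k) : ⇑(alLin k hq hA f) = ⇑f ∣[k] A := rfl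

/-- Cusps of `Γ₀(M)` are cusps of `Γ₀(N)` (both are all of `ℙ¹(ℚ)`). -/
theorem isCusp_Gamma0_of_isCusp_Gamma0 {M N : ℕ} [NeZero M] [NeZero N] {c : OnePoint ℝ}
    (hc : IsCusp c (Gamma0 M : Subgroup (GL (Fin 2) ℝ))) :
    IsCusp c (Gamma0 N : Subgroup (GL (Fin 2) ℝ)) := by
  rw [Subgroup.IsArithmetic.isCusp_iff_isCusp_SL2Z] at hc ⊢
  exact hc

/-- A function which is a cusp form of level `N` and is invariant under `Γ₀(M)` is a cusp form
of level `M`. -/
def descendCusp (k : ℤ) {M N : ℕ} [NeZero M] [NeZero N] (F : CuspForm (Gamma0 N) k)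
    (hinv : InvUnder M k ⇑F) : CuspForm (Gamma0 M) k where
  toFun := ⇑F
  slash_action_eq' := hinv
  holo' := CuspFormClass.holo F
  zero_at_cusps' := fun {c} hc =>
    CuspFormClass.zero_at_cusps F (isCusp_Gamma0_of_isCusp_Gamma0 hc)

@[simp] theorem coe_descendCusp (k : ℤ) {M N : ℕ} [NeZero M] [NeZero N]
    (F : CuspForm (Gamma0 N) k) (hinv : InvUnder M k ⇑F) :
    ⇑(descendCusp k F hinv) = ⇑F := rfl

/-- The statement `TraceAL` for the level written as `q * M`. -/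
theorem traceAL_aux {q M : ℕ} [NeZero (q * M)] (hq : q.Prime) (hqM : ¬ q ∣ M) :
    ∃ W : CuspForm (Gamma0 (q * M)) 2 →ₗ[ℂ] CuspForm (Gamma0 (q * M)) 2,
      (∀ (ℓ : ℕ) (hℓ : ℓ.Prime) (hℓN : ¬ ℓ ∣ q * M) (f : CuspForm (Gamma0 (q * M)) 2),
        W (CuspForm.heckeTLin 2 hℓ hℓN f) = CuspForm.heckeTLin 2 hℓ hℓN (W f)) ∧
      (∀ f : CuspForm (Gamma0 (q * M)) 2, ∃ g : CuspForm (Gamma0 M) 2,
        (⇑g : UpperHalfPlane → ℂ) = ⇑f + ModularForm.heckeU 2 q ⇑(W f)) ∧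
      (∀ f : CuspForm (Gamma0 (q * M)) 2, ∃ g : CuspForm (Gamma0 M) 2,
        (⇑g : UpperHalfPlane → ℂ) = ⇑(W f) + ModularForm.heckeU 2 q ⇑f) := by
  have hq0 : q ≠ 0 := hq.ne_zero
  have hM0 : M ≠ 0 := fun h => NeZero.ne (q * M) (by rw [h, mul_zero])
  haveI : NeZero M := ⟨hM0⟩
  have hcop : Nat.Coprime q M := (Nat.Prime.coprime_iff_not_dvd hq).mpr hqM
  obtain ⟨A, hA⟩ := exists_isAL hq0 hcop
  have hqN : q ∣ q * M := Dvd.intro _ rfl
  refine ⟨alLin 2 hq0 hA, ?_, ?_, ?_⟩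
  · intro ℓ hℓ hℓN f
    apply DFunLike.coe_injective
    rw [coe_alLin, CuspForm.coe_heckeTLin_apply, CuspForm.coe_heckeTLin_apply, coe_alLin]
    exact heckeT_slash_AL 2 hq0 hℓ hℓN (invUnder_of_slashInvariantFormClass f) hA
  · intro f
    have hinv : InvUnder M 2 ⇑(f + CuspForm.heckeULin 2 hqN (alLin 2 hq0 hA f)) := by
      have h1 := invUnder_slash_AL_add_heckeU 2 hq
        (invUnder_of_slashInvariantFormClass (alLin 2 hq0 hA f)) hA
      rw [coe_alLin, slash_AL_slash_AL hq0 (invUnder_of_slashInvariantFormClass f) hA] at h1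
      rw [CuspForm.coe_add, CuspForm.coe_heckeULin_apply, coe_alLin]
      exact h1
    refine ⟨descendCusp 2 _ hinv, ?_⟩
    rw [coe_descendCusp, CuspForm.coe_add, CuspForm.coe_heckeULin_apply]
  · intro f
    have hinv : InvUnder M 2 ⇑(alLin 2 hq0 hA f + CuspForm.heckeULin 2 hqN f) := by
      have h1 := invUnder_slash_AL_add_heckeU 2 hq (invUnder_of_slashInvariantFormClass f) hA
      rw [CuspForm.coe_add, CuspForm.coe_heckeULin_apply, coe_alLin]
      exact h1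
    refine ⟨descendCusp 2 _ hinv, ?_⟩
    rw [coe_descendCusp, CuspForm.coe_add, CuspForm.coe_heckeULin_apply]

/-- **The leaf `TraceAL`.** -/
theorem traceAL : Fermat.Agent.Lib.Newform.H958.TraceAL := by
  intro N q _ hq hqN hq2
  obtain ⟨M, rfl⟩ := hqN
  have hqM : ¬ q ∣ M := by
    intro h
    apply hq2
    rw [pow_two]
    exact Nat.mul_dvd_mul_left q h
  rw [Nat.mul_div_cancel_left M hq.pos]
  exact traceAL_aux hq hqM

end Fermat.Agent.Lib.Newform.H923
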