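import Fermat.Agent.Lib.Newform.H923.AL

/-!
# The trace from `Γ₀(q M)` to `Γ₀(M)` of an Atkin–Lehner translate

For `f` invariant under `Γ₀(q M)` (`q` prime, `q ∤ M`) and an Atkin–Lehner matrix `A` at `q`,
the function `f ∣[k] A + heckeU k q f` is invariant under `Γ₀(M)`
(it is the trace of `f ∣[k] A`, up to normalisation).
-/

set_option autoImplicit false

noncomputable section

namespace Fermat.Agent.Lib.Newform.H923

open Matrix UpperHalfPlane ModularForm
open scoped MatrixGroups ModularForm OnePoint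

theorem IsInt.unique {A : GL (Fin 2) ℝ} {a b c d a' b' c' d' : ℤ} (hA : IsInt A a b c d)
    (hA' : IsInt A a' b' c' d') : a = a' ∧ b = b' ∧ c = c' ∧ d = d' := by
  have h : !![(a : ℝ), (b : ℝ); (c : ℝ), (d : ℝ)] = !![(a' : ℝ), (b' : ℝ); (c' : ℝ), (d' : ℝ)] :=
    hA.symm.trans hA'
  have h00 := congrFun (congrFun h 0) 0
  have h01 := congrFun (congrFun h 0) 1
  have h10 := congrFun (congrFun h 1) 0
  have h11 := congrFun (congrFun h 1) 1
  simp at h00 h01 h10 h11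
  exact ⟨h00, h01, h10, h11⟩

/-- An integral matrix of determinant one with lower left entry divisible by `N` comes from
`Γ₀(N)`. -/
theorem IsInt.exists_mapGL {A : GL (Fin 2) ℝ} {a b c d : ℤ} (hA : IsInt A a b c d)
    (hdet : a * d - b * c = 1) {N : ℕ} (hc : (N : ℤ) ∣ c) :
    ∃ g ∈ CongruenceSubgroup.Gamma0 N, A = Matrix.SpecialLinearGroup.mapGL ℝ g := by
  let g : SL(2, ℤ) := ⟨!![a, b; c, d], by rw [Matrix.det_fin_two_of]; exact hdet⟩
  refine ⟨g, ?_, hA.ext (isInt_mapGL g) rfl rfl rfl rfl⟩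
  rw [CongruenceSubgroup.Gamma0_mem]
  exact (ZMod.intCast_zmod_eq_zero_iff_dvd _ _).mpr hc

theorem InvUnder.slash_isInt {N : ℕ} {k : ℤ} {f : ℍ → ℂ} (hf : InvUnder N k f)
    {A : GL (Fin 2) ℝ} {a b c d : ℤ} (hA : IsInt A a b c d)
    (hdet : a * d - b * c = 1) (hc : (N : ℤ) ∣ c) : f ∣[k] A = f := by
  obtain ⟨g, hg, rfl⟩ := hA.exists_mapGL hdet hc
  exact hf.slash_mapGL hg

/-- The representatives of `Γ₀(q M) \ Γ₀(M)` twisted by the Atkin–Lehner matrix `A`. -/
def alRep (q : ℕ) (A : GL (Fin 2) ℝ) (x : OnePoint (ZMod q)) : GL (Fin 2) ℝ :=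
  x.elim A (fun j ↦ heckeMatrix q j.val)

@[simp] theorem alRep_infty (q : ℕ) (A : GL (Fin 2) ℝ) : alRep q A ∞ = A := rfl

@[simp] theorem alRep_coe (q : ℕ) (A : GL (Fin 2) ℝ) (j : ZMod q) :
    alRep q A j = heckeMatrix q j.val := rfl

theorem slash_add_heckeU_eq_sum {q : ℕ} [NeZero q] (k : ℤ) (A : GL (Fin 2) ℝ) (f : ℍ → ℂ) :
    f ∣[k] A + heckeU k q f = ∑ x : OnePoint (ZMod q), f ∣[k] alRep q A x := by
  rw [heckeU_eq_sum_zmod']
  exact (Fintype.sum_option (fun x : OnePoint (ZMod q) ↦ f ∣[k] alRep q A x)).symm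

/-- Key step: for `g ∈ Γ₀(M)`, right multiplication by `g` permutes the classes of the
representatives `alRep q A x` modulo `Γ₀(q M)`. -/
theorem slash_alRep_mapGL (k : ℤ) {q M : ℕ} (hq : q.Prime) {f : ℍ → ℂ}
    (hf : InvUnder (q * M) k f) {A : GL (Fin 2) ℝ} (hA : IsAL q M A)
    {g : SL(2, ℤ)} (hg : g ∈ CongruenceSubgroup.Gamma0 M)
    (hdet : ¬ ((q : ℕ) : ℤ) ∣ g 0 0 * g 1 1 - g 0 1 * g 1 0) (x : OnePoint (ZMod q)) :
    haveI : Fact q.Prime := ⟨hq⟩
    (f ∣[k] alRep q A x) ∣[k] (Matrix.SpecialLinearGroup.mapGL ℝ g) =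
      f ∣[k] alRep q A (redGL q (g 0 0) (g 0 1) (g 1 0) (g 1 1) hdet • x) := by
  haveI : Fact q.Prime := ⟨hq⟩
  have hq0 : q ≠ 0 := hq.ne_zero
  have hq0' : (q : ℤ) ≠ 0 := by exact_mod_cast hq0
  obtain ⟨a, b, c, d, hInt, h⟩ := id hA
  have hqM : Nat.Coprime q M := by
    have : IsCoprime (q : ℤ) (M : ℤ) := ⟨a * d, -(b * c), by linear_combination h⟩
    exact Nat.isCoprime_iff_coprime.mp this
  have hcopM : IsCoprime (M : ℤ) (q : ℤ) := (Nat.isCoprime_iff_coprime.mpr hqM).symm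
  have hgM : (M : ℤ) ∣ g 1 0 :=
    (ZMod.intCast_zmod_eq_zero_iff_dvd _ _).mp (CongruenceSubgroup.Gamma0_mem.mp hg)
  have hdetg : g 0 0 * g 1 1 - g 0 1 * g 1 0 = 1 := by
    have := g.det_coe
    rwa [Matrix.det_fin_two] at this
  -- the `SL₂(ℤ)`-part of `A`
  have hγ₁det : a * (q * d) - b * (M * c) ≠ 0 := by
    have : a * (q * d) - b * (M * c) = 1 := by linear_combination h
    rw [this]; exact one_ne_zero
  set γ₁ : GL (Fin 2) ℝ := intGL a b (M * c) (q * d) hγ₁det with hγ₁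
  have hγ₁Int : IsInt γ₁ a b (M * c) (q * d) := isInt_intGL _ _ _ _ _
  have hAγ₁ : A = γ₁ * heckeDiagMatrix q := by
    refine hInt.ext (hγ₁Int.mul (isInt_heckeDiagMatrix hq0)) ?_ ?_ ?_ ?_ <;> ring
  obtain ⟨A', a', b', c', d', hA', hdet', h1, -, -, hmul⟩ :=
    exists_hRep_mul (isInt_mapGL g) hdet x
  rw [hdetg] at hdet'
  have hMc' : (M : ℤ) ∣ c' := h1 M hcopM hgM
  obtain ⟨t, ht⟩ := hMc'
  rw [← SlashAction.slash_mul]
  induction x using OnePoint.rec with
  | infty =>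
    rw [alRep_infty]
    rw [hRep_infty] at hmul
    rcases hσ : (redGL q (g 0 0) (g 0 1) (g 1 0) (g 1 1) hdet • (∞ : OnePoint (ZMod q))) with _ | j'
    · -- `∞ ↦ ∞`
      rw [hσ] at hmul
      change heckeDiagMatrix q * _ = A' * heckeDiagMatrix q at hmul
      change f ∣[k] (A * _) = f ∣[k] A
      obtain ⟨-, h01, -, -⟩ := (((isInt_heckeDiagMatrix hq0).mul (isInt_mapGL g)).unique
        (hmul ▸ hA'.mul (isInt_heckeDiagMatrix hq0)))
      have hb' : b' = q * g 0 1 := by linear_combination -h01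
      rw [hAγ₁, mul_assoc, hmul, ← mul_assoc]
      have hInt2 := (hγ₁Int.mul hA').mul (isInt_heckeDiagMatrix hq0)
      refine slash_AL_eq hf (hAγ₁ ▸ hA) (isAL_of_dvd hq0 hInt2 ?_ ?_ ?_ ?_)
      · linear_combination (q : ℤ) * (a' * d' - b' * c') * h + (q : ℤ) * hdet'
      · exact ⟨a * a' + b * c', by ring⟩
      · refine ⟨c * a' + q * d * t, ?_⟩
        rw [ht]; push_cast; ring
      · refine ⟨M * c * g 0 1 + d * d', ?_⟩
        rw [hb']; ring
    · -- `∞ ↦ j'`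
      rw [hσ] at hmul
      change heckeDiagMatrix q * _ = A' * heckeMatrix q j'.val at hmul
      change f ∣[k] (A * _) = f ∣[k] heckeMatrix q j'.val
      obtain ⟨h00, -, -, -⟩ := (((isInt_heckeDiagMatrix hq0).mul (isInt_mapGL g)).unique
        (hmul ▸ hA'.mul (isInt_heckeMatrix hq0 j'.val)))
      have ha' : a' = q * g 0 0 := by linear_combination -h00
      rw [hAγ₁, mul_assoc, hmul, ← mul_assoc, SlashAction.slash_mul]
      congr 1
      refine hf.slash_isInt (hγ₁Int.mul hA') ?_ ?_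
      · linear_combination (a' * d' - b' * c') * h + hdet'
      · refine ⟨c * g 0 0 + d * t, ?_⟩
        rw [ha', ht]; push_cast; ring
  | coe j =>
    rw [alRep_coe]
    rw [hRep_coe] at hmul
    rcases hσ : (redGL q (g 0 0) (g 0 1) (g 1 0) (g 1 1) hdet • (j : OnePoint (ZMod q)))
      with _ | j'
    · -- `j ↦ ∞`
      rw [hσ] at hmul
      change heckeMatrix q j.val * _ = A' * heckeDiagMatrix q at hmul
      change f ∣[k] (heckeMatrix q j.val * _) = f ∣[k] A
      obtain ⟨-, -, -, h11⟩ := (((isInt_heckeMatrix hq0 j.val).mul (isInt_mapGL g)).unique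
        (hmul ▸ hA'.mul (isInt_heckeDiagMatrix hq0)))
      have hd' : d' = q * g 1 1 := by linear_combination -h11
      rw [hmul]
      have hInt2 := hA'.mul (isInt_heckeDiagMatrix hq0)
      refine slash_AL_eq hf hA (isAL_of_dvd hq0 hInt2 ?_ ?_ ?_ ?_)
      · linear_combination (q : ℤ) * hdet'
      · exact ⟨a', by ring⟩
      · refine ⟨t, ?_⟩
        rw [ht]; push_cast; ring
      · refine ⟨g 1 1, ?_⟩
        rw [hd']; ring
    · -- `j ↦ j'`
      rw [hσ] at hmul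
      change heckeMatrix q j.val * _ = A' * heckeMatrix q j'.val at hmul
      change f ∣[k] (heckeMatrix q j.val * _) = f ∣[k] heckeMatrix q j'.val
      obtain ⟨-, -, h10, -⟩ := (((isInt_heckeMatrix hq0 j.val).mul (isInt_mapGL g)).unique
        (hmul ▸ hA'.mul (isInt_heckeMatrix hq0 j'.val)))
      have hc' : c' = q * g 1 0 := by linear_combination -h10
      rw [hmul, SlashAction.slash_mul]
      congr 1
      refine hf.slash_isInt hA' hdet' ?_
      obtain ⟨s, hs⟩ := hgM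
      refine ⟨s, ?_⟩
      rw [hc', hs]; push_cast; ring

/-- **Trace formula, invariance part.** For `f` invariant under `Γ₀(q M)` and an Atkin–Lehner
matrix `A` at the prime `q`, the function `f ∣[k] A + U_q f` is invariant under `Γ₀(M)`. -/
theorem invUnder_slash_AL_add_heckeU (k : ℤ) {q M : ℕ} (hq : q.Prime) {f : ℍ → ℂ}
    (hf : InvUnder (q * M) k f) {A : GL (Fin 2) ℝ} (hA : IsAL q M A) :
    InvUnder M k (f ∣[k] A + heckeU k q f) := by
  haveI : Fact q.Prime := ⟨hq⟩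
  haveI : NeZero q := ⟨hq.ne_zero⟩
  rintro _ ⟨g, hg, rfl⟩
  have hdetg : g 0 0 * g 1 1 - g 0 1 * g 1 0 = 1 := by
    have := g.det_coe
    rwa [Matrix.det_fin_two] at this
  have hdet : ¬ ((q : ℕ) : ℤ) ∣ g 0 0 * g 1 1 - g 0 1 * g 1 0 := by
    rw [hdetg]
    intro hd
    have := Int.eq_one_of_dvd_one (by positivity) hd
    exact hq.one_lt.ne' (by exact_mod_cast this)
  rw [slash_add_heckeU_eq_sum, SlashAction.sum_slash]
  calc ∑ x : OnePoint (ZMod q), (f ∣[k] alRep q A x) ∣[k] (Matrix.SpecialLinearGroup.mapGL ℝ g)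
      = ∑ x : OnePoint (ZMod q),
          f ∣[k] alRep q A (redGL q (g 0 0) (g 0 1) (g 1 0) (g 1 1) hdet • x) :=
        Finset.sum_congr rfl fun x _ ↦ slash_alRep_mapGL k hq hf hA hg hdet x
    _ = ∑ x : OnePoint (ZMod q), f ∣[k] alRep q A x :=
        Equiv.sum_comp (MulAction.toPerm (redGL q (g 0 0) (g 0 1) (g 1 0) (g 1 1) hdet))
          (fun x ↦ f ∣[k] alRep q A x)

end Fermat.Agent.Lib.Newform.H923
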