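import Mathlib
import Fermat.Prelude.Def_ModularForm_HeckeOperator

/-!
# Hecke representatives versus integer matrices of determinant prime to `ℓ`

For a prime `ℓ`, the `ℓ + 1` matrices `hRep ℓ x` (`x ∈ ℙ¹(𝔽_ℓ)`) are the standard representatives
used in the Prelude definition of `heckeT`.  For every real matrix `A` with integer entries
`a b c d` and determinant prime to `ℓ` we show
`hRep ℓ x * A = A' * hRep ℓ (σ x)` with `A'` integral of the same determinant, `σ` a permutation
of `ℙ¹(𝔽_ℓ)`, and we keep track of divisibility properties of the entries of `A'`.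
-/

set_option autoImplicit false

noncomputable section

namespace Fermat.Agent.Lib.Newform.H923

open Matrix UpperHalfPlane ModularForm
open scoped MatrixGroups ModularForm OnePoint

/-- `IsInt A a b c d` : the real matrix `A` is `!![a, b; c, d]` with integers `a b c d`. -/
def IsInt (A : GL (Fin 2) ℝ) (a b c d : ℤ) : Prop :=
  (A : Matrix (Fin 2) (Fin 2) ℝ) = !![(a : ℝ), (b : ℝ); (c : ℝ), (d : ℝ)]

/-- The real `2 × 2` matrix with integer entries `a b c d` and nonzero determinant. -/
def intGL (a b c d : ℤ) (h : a * d - b * c ≠ 0) : GL (Fin 2) ℝ :=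
  Matrix.GeneralLinearGroup.mkOfDetNeZero !![(a : ℝ), (b : ℝ); (c : ℝ), (d : ℝ)]
    (by rw [Matrix.det_fin_two_of]; exact_mod_cast h)

theorem isInt_intGL (a b c d : ℤ) (h : a * d - b * c ≠ 0) : IsInt (intGL a b c d h) a b c d := rfl

theorem IsInt.det_ne_zero {A : GL (Fin 2) ℝ} {a b c d : ℤ} (hA : IsInt A a b c d) :
    a * d - b * c ≠ 0 := by
  have h := A.det_ne_zero
  rw [hA, Matrix.det_fin_two_of] at h
  exact_mod_cast h

theorem IsInt.eq_intGL {A : GL (Fin 2) ℝ} {a b c d : ℤ} (hA : IsInt A a b c d) :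
    A = intGL a b c d hA.det_ne_zero :=
  Units.ext hA

theorem IsInt.det {A : GL (Fin 2) ℝ} {a b c d : ℤ} (hA : IsInt A a b c d) :
    (A.det : ℝ) = ((a * d - b * c : ℤ) : ℝ) := by
  rw [Matrix.GeneralLinearGroup.val_det_apply, hA, Matrix.det_fin_two_of]
  push_cast
  ring

theorem isInt_mapGL (g : SL(2, ℤ)) :
    IsInt (Matrix.SpecialLinearGroup.mapGL ℝ g) (g 0 0) (g 0 1) (g 1 0) (g 1 1) := by
  unfold IsInt
  ext i j
  fin_cases i <;> fin_cases j <;> simp

theorem isInt_heckeMatrix {p : ℕ} (hp : p ≠ 0) (j : ℕ) : IsInt (heckeMatrix p j) 1 j 0 p := by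
  unfold IsInt
  rw [val_heckeMatrix hp]
  simp

theorem isInt_heckeDiagMatrix {p : ℕ} (hp : p ≠ 0) : IsInt (heckeDiagMatrix p) p 0 0 1 := by
  unfold IsInt
  rw [val_heckeDiagMatrix hp]
  simp

/-- product of integer matrices -/
theorem IsInt.mul {A B : GL (Fin 2) ℝ} {a b c d a' b' c' d' : ℤ} (hA : IsInt A a b c d)
    (hB : IsInt B a' b' c' d') :
    IsInt (A * B) (a * a' + b * c') (a * b' + b * d') (c * a' + d * c') (c * b' + d * d') := by
  unfold IsInt at *
  rw [Units.val_mul, hA, hB]
  ext i j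
  fin_cases i <;> fin_cases j <;> simp [Matrix.mul_apply, Fin.sum_univ_two]

/-- Two elements of `GL(2,ℝ)` with the same integer entries are equal. -/
theorem IsInt.ext {A B : GL (Fin 2) ℝ} {a b c d a' b' c' d' : ℤ} (hA : IsInt A a b c d)
    (hB : IsInt B a' b' c' d') (h1 : a = a') (h2 : b = b') (h3 : c = c') (h4 : d = d') : A = B := by
  subst h1 h2 h3 h4
  exact Units.ext (hA.trans hB.symm)

section commutation

variable {p : ℕ} (hp : p ≠ 0)
include hp

theorem heckeMatrix_mul_isInt {A A' : GL (Fin 2) ℝ} {a b c d : ℤ} (hA : IsInt A a b c d)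
    (j j' : ℕ) (e : ℤ) (he : b + j * d = j' * (a + j * c) + p * e)
    (hA' : IsInt A' (a + j * c) e (p * c) (d - c * j')) :
    heckeMatrix p j * A = A' * heckeMatrix p j' := by
  refine ((isInt_heckeMatrix hp j).mul hA).ext (hA'.mul (isInt_heckeMatrix hp j')) ?_ ?_ ?_ ?_
  · ring
  · linear_combination he
  · ring
  · ring

theorem heckeMatrix_mul_isInt' {A A' : GL (Fin 2) ℝ} {a b c d : ℤ} (hA : IsInt A a b c d)
    (j : ℕ) (e : ℤ) (he : a + j * c = p * e)
    (hA' : IsInt A' e (b + j * d) c (p * d)) :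
    heckeMatrix p j * A = A' * heckeDiagMatrix p := by
  refine ((isInt_heckeMatrix hp j).mul hA).ext (hA'.mul (isInt_heckeDiagMatrix hp)) ?_ ?_ ?_ ?_
  · linear_combination he
  · ring
  · ring
  · ring

theorem heckeDiagMatrix_mul_isInt {A A' : GL (Fin 2) ℝ} {a b c d : ℤ} (hA : IsInt A a b c d)
    (j' : ℕ) (e : ℤ) (he : d = c * j' + p * e)
    (hA' : IsInt A' (p * a) (b - a * j') c e) :
    heckeDiagMatrix p * A = A' * heckeMatrix p j' := by
  refine ((isInt_heckeDiagMatrix hp).mul hA).ext (hA'.mul (isInt_heckeMatrix hp j')) ?_ ?_ ?_ ?_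
  · ring
  · ring
  · ring
  · linear_combination he

theorem heckeDiagMatrix_mul_isInt' {A A' : GL (Fin 2) ℝ} {a b c d : ℤ} (hA : IsInt A a b c d)
    (e : ℤ) (he : c = p * e)
    (hA' : IsInt A' a (p * b) e d) :
    heckeDiagMatrix p * A = A' * heckeDiagMatrix p := by
  refine ((isInt_heckeDiagMatrix hp).mul hA).ext (hA'.mul (isInt_heckeDiagMatrix hp)) ?_ ?_ ?_ ?_
  · ring
  · ring
  · linear_combination he
  · ring

end commutation


section reindex

variable {p : ℕ} [NeZero p]

theorem sum_range_eq_sum_zmod' {M : Type*} [AddCommMonoid M] (F : ℕ → M) :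
    ∑ j ∈ Finset.range p, F j = ∑ x : ZMod p, F x.val := by
  refine Finset.sum_nbij' (fun j : ℕ ↦ (j : ZMod p)) (fun x : ZMod p ↦ x.val)
    (fun _ _ ↦ Finset.mem_univ _)
    (fun x _ ↦ Finset.mem_range.mpr x.val_lt) (fun j hj ↦ ?_) (fun x _ ↦ ?_) (fun j hj ↦ ?_)
  · exact ZMod.val_cast_of_lt (Finset.mem_range.mp hj)
  · exact ZMod.natCast_zmod_val x
  · rw [ZMod.val_cast_of_lt (Finset.mem_range.mp hj)]

theorem heckeU_eq_sum_zmod' (k : ℤ) (f : ℍ → ℂ) :
    heckeU k p f = ∑ x : ZMod p, f ∣[k] heckeMatrix p x.val := by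
  rw [heckeU_def]
  exact sum_range_eq_sum_zmod' _

end reindex

/-- The standard representatives of the Hecke operator `T_p`, indexed by `ℙ¹(𝔽_p)`. -/
def hRep (p : ℕ) (x : OnePoint (ZMod p)) : GL (Fin 2) ℝ :=
  x.elim (heckeDiagMatrix p) (fun j ↦ heckeMatrix p j.val)

@[simp] theorem hRep_infty (p : ℕ) : hRep p ∞ = heckeDiagMatrix p := rfl

@[simp] theorem hRep_coe (p : ℕ) (j : ZMod p) : hRep p j = heckeMatrix p j.val := rfl

theorem heckeT_eq_sum_hRep {p : ℕ} [NeZero p] (k : ℤ) (f : ℍ → ℂ) :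
    heckeT k p f = ∑ x : OnePoint (ZMod p), f ∣[k] hRep p x := by
  rw [heckeT_eq_heckeU_add, heckeU_eq_sum_zmod', add_comm]
  exact (Fintype.sum_option (fun x : OnePoint (ZMod p) ↦ f ∣[k] hRep p x)).symm

section main

variable {p : ℕ} [Fact p.Prime]

/-- The reduction mod `p` (in the convention of the Prelude) of an integer matrix of determinant
prime to `p`. -/
def redGL (p : ℕ) [Fact p.Prime] (a b c d : ℤ) (h : ¬ (p : ℤ) ∣ a * d - b * c) :
    GL (Fin 2) (ZMod p) :=
  Matrix.GeneralLinearGroup.mkOfDetNeZero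
    !![(d : ZMod p), (b : ZMod p); (c : ZMod p), (a : ZMod p)]
    (by
      rw [Matrix.det_fin_two_of]
      intro h0
      apply h
      rw [← ZMod.intCast_zmod_eq_zero_iff_dvd]
      push_cast
      linear_combination h0)

@[simp] theorem redGL_apply_zero_zero (a b c d : ℤ) (h : ¬ (p : ℤ) ∣ a * d - b * c) :
    redGL p a b c d h 0 0 = (d : ZMod p) := by
  simp [redGL]

@[simp] theorem redGL_apply_zero_one (a b c d : ℤ) (h : ¬ (p : ℤ) ∣ a * d - b * c) :
    redGL p a b c d h 0 1 = (b : ZMod p) := by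
  simp [redGL]

@[simp] theorem redGL_apply_one_zero (a b c d : ℤ) (h : ¬ (p : ℤ) ∣ a * d - b * c) :
    redGL p a b c d h 1 0 = (c : ZMod p) := by
  simp [redGL]

@[simp] theorem redGL_apply_one_one (a b c d : ℤ) (h : ¬ (p : ℤ) ∣ a * d - b * c) :
    redGL p a b c d h 1 1 = (a : ZMod p) := by
  simp [redGL]

/-- The key matrix lemma: `hRep p x * A = A' * hRep p (σ x)` for integral `A` of determinant
prime to `p`, with control of the entries of `A'`. -/
theorem exists_hRep_mul {A : GL (Fin 2) ℝ} {a b c d : ℤ} (hA : IsInt A a b c d)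
    (hdet : ¬ (p : ℤ) ∣ a * d - b * c) (x : OnePoint (ZMod p)) :
    ∃ (A' : GL (Fin 2) ℝ) (a' b' c' d' : ℤ), IsInt A' a' b' c' d' ∧
      a' * d' - b' * c' = a * d - b * c ∧
      (∀ m : ℤ, IsCoprime m (p : ℤ) → m ∣ c → m ∣ c') ∧
      (∀ m : ℤ, IsCoprime m (p : ℤ) → m ∣ a → m ∣ c → m ∣ a') ∧
      (∀ m : ℤ, IsCoprime m (p : ℤ) → m ∣ d → m ∣ c → m ∣ d') ∧
      hRep p x * A = A' * hRep p (redGL p a b c d hdet • x) := by
  have hp : p ≠ 0 := (Fact.out : p.Prime).ne_zero
  have : NeZero p := ⟨hp⟩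
  have hD : a * d - b * c ≠ 0 := hA.det_ne_zero
  induction x using OnePoint.rec with
  | infty =>
    rw [OnePoint.smul_infty_eq_ite]
    by_cases hc : ((c : ℤ) : ZMod p) = 0
    · rw [if_pos (by simpa using hc), hRep_infty]
      obtain ⟨e, he⟩ := (ZMod.intCast_zmod_eq_zero_iff_dvd _ _).mp hc
      have hdet' : a * d - (p * b) * e = a * d - b * c := by rw [he]; ring
      refine ⟨intGL a (p * b) e d (by rw [hdet']; exact hD), a, p * b, e, d, isInt_intGL _ _ _ _ _,
        hdet', ?_, ?_, ?_, ?_⟩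
      · intro m hm hmc
        rw [he] at hmc
        exact hm.dvd_of_dvd_mul_left hmc
      · intro m _ hma _
        exact hma
      · intro m _ hmd _
        exact hmd
      · exact heckeDiagMatrix_mul_isInt' hp hA e he (isInt_intGL _ _ _ _ _)
    · rw [if_neg (by simpa using hc), hRep_infty, hRep_coe]
      set y : ZMod p := redGL p a b c d hdet 0 0 / redGL p a b c d hdet 1 0 with hy
      obtain ⟨e, he⟩ : (p : ℤ) ∣ d - c * y.val := by
        rw [← ZMod.intCast_zmod_eq_zero_iff_dvd]
        push_cast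
        rw [ZMod.natCast_zmod_val, hy, redGL_apply_zero_zero, redGL_apply_one_zero,
          mul_div_cancel₀ _ hc, sub_self]
      have he' : d = c * y.val + p * e := by linear_combination he
      have hdet' : (p * a) * e - (b - a * y.val) * c = a * d - b * c := by
        linear_combination (-a) * he'
      refine ⟨intGL (p * a) (b - a * y.val) c e (by rw [hdet']; exact hD), p * a, b - a * y.val,
        c, e, isInt_intGL _ _ _ _ _, hdet', ?_, ?_, ?_, ?_⟩
      · intro m _ hmc
        exact hmc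
      · intro m _ hma _
        exact Dvd.dvd.mul_left hma _
      · intro m hm hmd hmc
        have : m ∣ (p : ℤ) * e := by
          have h1 : (p : ℤ) * e = d - c * y.val := by linear_combination -he'
          rw [h1]
          exact dvd_sub hmd (Dvd.dvd.mul_right hmc _)
        exact hm.dvd_of_dvd_mul_left this
      · exact heckeDiagMatrix_mul_isInt hp hA y.val e he' (isInt_intGL _ _ _ _ _)
  | coe j =>
    rw [OnePoint.smul_some_eq_ite]
    by_cases h : redGL p a b c d hdet 1 0 * j + redGL p a b c d hdet 1 1 = 0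
    · rw [if_pos h, hRep_infty, hRep_coe]
      rw [redGL_apply_one_zero, redGL_apply_one_one] at h
      obtain ⟨e, he⟩ : (p : ℤ) ∣ a + j.val * c := by
        rw [← ZMod.intCast_zmod_eq_zero_iff_dvd]
        push_cast
        rw [ZMod.natCast_zmod_val]
        linear_combination h
      have hdet' : e * (p * d) - (b + j.val * d) * c = a * d - b * c := by
        linear_combination (-d) * he
      refine ⟨intGL e (b + j.val * d) c (p * d) (by rw [hdet']; exact hD), e, b + j.val * d, c,
        p * d, isInt_intGL _ _ _ _ _, hdet', ?_, ?_, ?_, ?_⟩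
      · intro m _ hmc
        exact hmc
      · intro m hm hma hmc
        have : m ∣ (p : ℤ) * e := by
          rw [← he]
          exact dvd_add hma (Dvd.dvd.mul_left hmc _)
        exact hm.dvd_of_dvd_mul_left this
      · intro m _ hmd _
        exact Dvd.dvd.mul_left hmd _
      · exact heckeMatrix_mul_isInt' hp hA j.val e he (isInt_intGL _ _ _ _ _)
    · rw [if_neg h, hRep_coe, hRep_coe]
      set y : ZMod p := (redGL p a b c d hdet 0 0 * j + redGL p a b c d hdet 0 1) /
        (redGL p a b c d hdet 1 0 * j + redGL p a b c d hdet 1 1) with hy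
      obtain ⟨e, he⟩ : (p : ℤ) ∣ b + j.val * d - y.val * (a + j.val * c) := by
        rw [← ZMod.intCast_zmod_eq_zero_iff_dvd]
        push_cast
        rw [ZMod.natCast_zmod_val, ZMod.natCast_zmod_val,
          show ((a : ℤ) : ZMod p) + j * ((c : ℤ) : ZMod p)
            = redGL p a b c d hdet 1 0 * j + redGL p a b c d hdet 1 1 by
              rw [redGL_apply_one_zero, redGL_apply_one_one]; ring,
          hy, div_mul_cancel₀ _ h, redGL_apply_zero_zero, redGL_apply_zero_one]
        ring
      have he' : b + j.val * d = y.val * (a + j.val * c) + p * e := by linear_combination he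
      have hdet' : (a + j.val * c) * (d - c * y.val) - e * (p * c) = a * d - b * c := by
        linear_combination c * he'
      refine ⟨intGL (a + j.val * c) e (p * c) (d - c * y.val) (by rw [hdet']; exact hD),
        a + j.val * c, e, p * c, d - c * y.val, isInt_intGL _ _ _ _ _, hdet', ?_, ?_, ?_, ?_⟩
      · intro m _ hmc
        exact Dvd.dvd.mul_left hmc _
      · intro m _ hma hmc
        exact dvd_add hma (Dvd.dvd.mul_left hmc _)
      · intro m _ hmd hmc
        exact dvd_sub hmd (Dvd.dvd.mul_right hmc _)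
      · exact heckeMatrix_mul_isInt hp hA j.val y.val e he' (isInt_intGL _ _ _ _ _)

end main

end Fermat.Agent.Lib.Newform.H923
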